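/-
Project D (S48, Deligne–Serre), part B, block B5, seam [B-heq], the `T_p^*` half (level-free part 1):
systems of representatives of `Γ' \ Γ` for subgroups `Γ' ≤ Γ ≤ SL(2, ℤ)` and the norm of a modular
form from `Γ'` to `Γ` as the product over ANY such system.

Generic twin of main's `S30/Hecke/NormEmbReps` and of the group half of `S30/Hecke/NormEmbForms`
(there: `Γ = Γ₀(N)`, `Γ' = Γ₀(N r)`).

* `Q Γ' Γ` : the index set of Mathlib's `ModularForm.norm (GG Γ)` for forms on `GG Γ'`; `rep`, `cls`;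
* `IsSystemG Γ' s hs` : `s : X → SL(2, ℤ)` is a system of representatives of `Γ' \ Γ`;
  `isSystemG_of_surj`;
* `prod_slash_eq_prod_rep` : independence of the representatives;
* **`isMF_prod_slash`**, `prod_slash_ne_zero` : for a form `a` of weight `k` on `Γ'`, the product
  `∏ x, a ∣[k] s x` is a form of weight `k * #X` on `Γ`.
-/
import Mathlib
import Fermat.Agent.S48.B.ES.RepG
import Fermat.Agent.S30.Analytic.Character

set_option autoImplicit false
set_option linter.style.haveILetI false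

open UpperHalfPlane Matrix.SpecialLinearGroup
open scoped MatrixGroups ModularForm Manifold

noncomputable section

namespace Fermat.Agent.S48.B.Hecke.NormG.Reps

open Fermat.Agent.S20 Fermat.Agent.S48.B.ES.RepG

/-! ### the index set -/

section Group

variable (Γ' Γ : Subgroup SL(2, ℤ))

theorem GG_mono {Γ' Γ : Subgroup SL(2, ℤ)} (h : Γ' ≤ Γ) : GG Γ' ≤ GG Γ := Subgroup.map_mono h

theorem mem_of_mapGL_mem {Γ : Subgroup SL(2, ℤ)} {δ : SL(2, ℤ)} (h : mapGL ℝ δ ∈ GG Γ) : δ ∈ Γ := by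
  obtain ⟨δ', hδ', h'⟩ := h
  rwa [← mapGL_injective h']

/-- The index set of Mathlib's `ModularForm.norm` from `Γ'` to `Γ`. -/
abbrev Q : Type := ↥(GG Γ) ⧸ (GG Γ').subgroupOf (GG Γ)

theorem card_Q : Nat.card (Q Γ' Γ) = Γ'.relIndex Γ := by
  rw [← Subgroup.index_eq_card]
  exact Subgroup.relIndex_map_map_of_injective Γ' Γ mapGL_injective

theorem exists_rep (q : Q Γ' Γ) :
    ∃ s : SL(2, ℤ), s ∈ Γ ∧ mapGL ℝ s = ((Quotient.out q : ↥(GG Γ)) : GL (Fin 2) ℝ)⁻¹ := by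
  obtain ⟨s, hs, hs'⟩ := (Quotient.out q : ↥(GG Γ)).2
  exact ⟨s⁻¹, inv_mem hs, by rw [map_inv, hs']⟩

/-- The representative in `SL(2, ℤ)` of the inverse of `q.out`. -/
def rep (q : Q Γ' Γ) : SL(2, ℤ) := Classical.choose (exists_rep Γ' Γ q)

theorem rep_mem (q : Q Γ' Γ) : rep Γ' Γ q ∈ Γ := (Classical.choose_spec (exists_rep Γ' Γ q)).1

theorem mapGL_rep (q : Q Γ' Γ) :
    mapGL ℝ (rep Γ' Γ q) = ((Quotient.out q : ↥(GG Γ)) : GL (Fin 2) ℝ)⁻¹ :=
  (Classical.choose_spec (exists_rep Γ' Γ q)).2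

/-- Distinct cosets have representatives in distinct right cosets of `Γ'`. -/
theorem eq_of_rep_mul_inv_mem {q q' : Q Γ' Γ} (h : rep Γ' Γ q' * (rep Γ' Γ q)⁻¹ ∈ Γ') : q = q' := by
  have h1 : mapGL ℝ (rep Γ' Γ q' * (rep Γ' Γ q)⁻¹) ∈ GG Γ' := Subgroup.mem_map_of_mem _ h
  rw [map_mul, map_inv, mapGL_rep, mapGL_rep, inv_inv] at h1
  have h2 : (QuotientGroup.mk (Quotient.out q') : Q Γ' Γ) = QuotientGroup.mk (Quotient.out q) := by
    rw [QuotientGroup.eq, Subgroup.mem_subgroupOf]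
    exact h1
  rw [QuotientGroup.out_eq', QuotientGroup.out_eq'] at h2
  exact h2.symm

variable {Γ}

/-- The class in `Γ ⧸ Γ'` of the inverse of `s ∈ Γ`: the index `q` with `rep q ∈ Γ' s`. -/
def cls (s : SL(2, ℤ)) (hs : s ∈ Γ) : Q Γ' Γ :=
  QuotientGroup.mk (⟨(mapGL ℝ s)⁻¹, inv_mem (Subgroup.mem_map_of_mem _ hs)⟩ : ↥(GG Γ))

theorem rep_cls_mul_inv_mem (s : SL(2, ℤ)) (hs : s ∈ Γ) :
    rep Γ' Γ (cls Γ' s hs) * s⁻¹ ∈ Γ' := by
  apply mem_of_mapGL_mem
  rw [map_mul, map_inv, mapGL_rep]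
  have h : (QuotientGroup.mk (Quotient.out (cls Γ' s hs)) : Q Γ' Γ) = cls Γ' s hs :=
    QuotientGroup.out_eq' _
  unfold cls at h
  rw [QuotientGroup.eq, Subgroup.mem_subgroupOf] at h
  exact h

theorem cls_eq_cls_iff {s s' : SL(2, ℤ)} (hs : s ∈ Γ) (hs' : s' ∈ Γ) :
    cls Γ' s hs = cls Γ' s' hs' ↔ s' * s⁻¹ ∈ Γ' := by
  unfold cls
  rw [QuotientGroup.eq, Subgroup.mem_subgroupOf]
  constructor
  · intro h
    have h1 : mapGL ℝ (s * s'⁻¹) ∈ GG Γ' := by
      rw [map_mul, map_inv]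
      simpa using h
    have h2 := inv_mem (mem_of_mapGL_mem h1)
    rwa [mul_inv_rev, inv_inv] at h2
  · intro h
    have h1 : mapGL ℝ (s * s'⁻¹) ∈ GG Γ' := by
      apply Subgroup.mem_map_of_mem
      have := inv_mem h
      rwa [mul_inv_rev, inv_inv] at this
    rw [map_mul, map_inv] at h1
    simpa using h1

theorem cls_rep (q : Q Γ' Γ) : cls Γ' (rep Γ' Γ q) (rep_mem Γ' Γ q) = q := by
  apply eq_of_rep_mul_inv_mem
  have := inv_mem (rep_cls_mul_inv_mem Γ' (rep Γ' Γ q) (rep_mem Γ' Γ q))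
  rwa [mul_inv_rev, inv_inv] at this

end Group

/-! ### systems of representatives -/

section Reps

variable {Γ' Γ : Subgroup SL(2, ℤ)} [Fact (ModularGroup.T ∈ Γ')]

/-- The translate by `rep (cls s)` is the translate by `s`. -/
theorem slash_rep_cls {k : ℤ} {a : ℍ → ℂ} (ha : IsMF (GG Γ') k a) (s : SL(2, ℤ)) (hs : s ∈ Γ) :
    a ∣[k] rep Γ' Γ (cls Γ' s hs) = a ∣[k] s := by
  have h := slashG_mul_left_of_mem (γ := s) (rep_cls_mul_inv_mem Γ' s hs) ha
  rwa [inv_mul_cancel_right] at h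

variable {X : Type*} [Fintype X] (s : X → SL(2, ℤ)) (hs : ∀ x, s x ∈ Γ)

variable (Γ') in
/-- A family of elements of `Γ` is a *system of representatives* of `Γ' \ Γ` when
`x ↦ cls (s x)` is bijective. -/
def IsSystemG {X : Type*} (s : X → SL(2, ℤ)) (hs : ∀ x, s x ∈ Γ) : Prop :=
  Function.Bijective fun x => cls Γ' (s x) (hs x)

omit [Fact (ModularGroup.T ∈ Γ')] [Fintype X] in
theorem isSystemG_of_surj (hinj : ∀ x y, s y * (s x)⁻¹ ∈ Γ' → x = y)
    (hsurj : ∀ g ∈ Γ, ∃ x, g * (s x)⁻¹ ∈ Γ') : IsSystemG Γ' s hs := by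
  refine ⟨?_, ?_⟩
  · intro x y hxy
    exact hinj x y ((cls_eq_cls_iff Γ' (hs x) (hs y)).mp hxy)
  · intro q
    obtain ⟨x, hx⟩ := hsurj (rep Γ' Γ q) (rep_mem Γ' Γ q)
    refine ⟨x, ?_⟩
    show cls Γ' (s x) (hs x) = q
    rw [← cls_rep Γ' q]
    exact (cls_eq_cls_iff Γ' (hs x) (rep_mem Γ' Γ q)).mpr hx

omit [Fact (ModularGroup.T ∈ Γ')] in
theorem finite_Q_of_isSystemG (hsys : IsSystemG Γ' s hs) : Finite (Q Γ' Γ) :=
  Finite.of_equiv X (Equiv.ofBijective _ hsys)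

omit [Fact (ModularGroup.T ∈ Γ')] in
theorem card_eq_of_isSystemG (hsys : IsSystemG Γ' s hs) : Fintype.card X = Nat.card (Q Γ' Γ) := by
  rw [← Nat.card_eq_fintype_card]
  exact Nat.card_congr (Equiv.ofBijective _ hsys)

omit [Fact (ModularGroup.T ∈ Γ')] in
theorem isFiniteRelIndex_of_isSystemG (hsys : IsSystemG Γ' s hs) :
    (GG Γ').IsFiniteRelIndex (GG Γ) where
  relIndex_ne_zero := by
    haveI := finite_Q_of_isSystemG s hs hsys
    show ((GG Γ').subgroupOf (GG Γ)).index ≠ 0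
    rw [Subgroup.index_eq_card]
    haveI : Nonempty (Q Γ' Γ) := ⟨QuotientGroup.mk 1⟩
    exact Nat.card_pos.ne'

/-- **Independence of the representatives.** -/
theorem prod_slash_eq_prod_rep (hsys : IsSystemG Γ' s hs) {k : ℤ} {a : ℍ → ℂ}
    (ha : IsMF (GG Γ') k a) :
    haveI := finite_Q_of_isSystemG s hs hsys
    letI := Fintype.ofFinite (Q Γ' Γ)
    ∏ x, a ∣[k] s x = ∏ q : Q Γ' Γ, a ∣[k] rep Γ' Γ q := by
  haveI := finite_Q_of_isSystemG s hs hsys
  letI := Fintype.ofFinite (Q Γ' Γ)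
  rw [← (Equiv.ofBijective _ hsys).prod_comp]
  exact Finset.prod_congr rfl fun x _ => (slash_rep_cls ha (s x) (hs x)).symm

omit [Fact (ModularGroup.T ∈ Γ')] in
/-- The coset translates entering Mathlib's `ModularForm.norm` are the translates by `rep q`. -/
theorem quotientFunc_eq_slash_rep {k : ℤ} (F : ModularForm (GG Γ') k) (q : Q Γ' Γ) :
    SlashInvariantForm.quotientFunc (ℋ := GG Γ) F q = (⇑F : ℍ → ℂ) ∣[k] (rep Γ' Γ q) := by
  conv_lhs => rw [← Quotient.out_eq q]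
  rw [SlashInvariantForm.quotientFunc_mk, ModularForm.SL_slash]
  rw [← mapGL_rep Γ' Γ q]
  rfl

/-- **the product of the translates of a form on `Γ'` over a system of representatives of `Γ' \ Γ`
is a form on `Γ`** -/
theorem isMF_prod_slash (hsys : IsSystemG Γ' s hs) {k : ℤ} {a : ℍ → ℂ} (ha : IsMF (GG Γ') k a) :
    IsMF (GG Γ) (k * (Fintype.card X : ℤ)) (∏ x, a ∣[k] s x) := by
  haveI := finite_Q_of_isSystemG s hs hsys
  haveI := isFiniteRelIndex_of_isSystemG s hs hsys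
  letI := Fintype.ofFinite (Q Γ' Γ)
  rw [prod_slash_eq_prod_rep s hs hsys ha, card_eq_of_isSystemG s hs hsys]
  obtain ⟨F, rfl⟩ := ha
  refine ⟨ModularForm.norm (GG Γ) F, ?_⟩
  rw [ModularForm.coe_norm]
  exact Finset.prod_congr rfl fun q _ => quotientFunc_eq_slash_rep F q

omit [Fact (ModularGroup.T ∈ Γ')] [Fintype X] in
/-- nonvanishing of the product -/
theorem prod_slash_ne_zero' [Fintype X] {k : ℤ} {a : ℍ → ℂ} (ha : MDiff a) (ha0 : a ≠ 0) :
    (∏ x, a ∣[k] s x) ≠ 0 := by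
  classical
  have hs' : ∀ t : Finset X, MDiff (∏ x ∈ t, a ∣[k] s x) := by
    intro t
    induction t using Finset.induction_on with
    | empty =>
      rw [Finset.prod_empty]
      exact mdifferentiable_const
    | insert i t hi ih =>
      rw [Finset.prod_insert hi]
      exact (Fermat.Agent.S24.RepHom.mdiff_slash (s i) ha).mul ih
  have : ∀ t : Finset X, (∏ x ∈ t, a ∣[k] s x) ≠ 0 := by
    intro t
    induction t using Finset.induction_on with
    | empty =>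
      rw [Finset.prod_empty]
      exact one_ne_zero
    | insert i t hi ih =>
      rw [Finset.prod_insert hi]
      intro h0
      rcases Fermat.Agent.S30.Analytic.Character.eq_zero_or_eq_zero_of_mul_eq_zero
        (Fermat.Agent.S24.RepHom.mdiff_slash (s i) ha) (hs' t) h0 with h1 | h1
      · exact Fermat.Agent.S24.RepHom.slash_ne_zero (s i) ha0 h1
      · exact ih h1
  exact this Finset.univ

end Reps

end Fermat.Agent.S48.B.Hecke.NormG.Reps
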