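/-
Project D (S48, Deligne–Serre), part B, block B5, seam [B-heq], the `T_p^*` half (level-free part 2):
the norm of a modular function along a finite extension of function fields is represented by the
products of the translates over a system of representatives.

Generic twin of main's `S30/Hecke/NormEmbForms.isRepOf_norm` (there `Γ = Γ₀(N)`, `Γ' = Γ₀(N r)`,
`F = ℚ̄(X₀(N))`, `E = ℚ̄(X₀(N r))`).

Setting: subgroups `Γ' ≤ Γ ≤ SL(2, ℤ)` containing `T`, fields `F → E` (finite separable) with ring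
homomorphisms `ρF : F →+* repFieldG Γ`, `ρE : E →+* repFieldG Γ'` compatible with `F → E`, a system
`s : X → SL(2, ℤ)` of representatives of `Γ' \ Γ` with `#X = [E : F]` such that the `#X` embeddings
`LmapG T (s x) ∘ ρE` (`T` the Taylor expansion at `i`) are pairwise distinct.

* `isRepOfG_mono`, `lmapG_base` ;
* **`isRepOfG_norm`** : if `ρE g` is represented by `(A, B)` of weight `k` on `Γ'` then
  `ρF (Norm_{E/F} g)` is represented by `(∏ x, A ∣[k] s x, ∏ x, B ∣[k] s x)` of weight `k * #X`.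
-/
import Mathlib
import Fermat.Agent.S24.AllPlaces
import Fermat.Agent.S24.LaurentPt
import Fermat.Agent.S24.LmapSep
import Fermat.Agent.S48.B.Hecke.NormG.Reps

set_option autoImplicit false
set_option linter.style.haveILetI false

open UpperHalfPlane Matrix.SpecialLinearGroup
open scoped MatrixGroups ModularForm Manifold

noncomputable section

namespace Fermat.Agent.S48.B.Hecke.NormG.Norm

open Fermat.Agent.S20 Fermat.Agent.S23.QRing Fermat.Agent.S48.B.ES.RepG
open Fermat.Agent.S24.RepHom (HolHom mdiff_of_isMF mdiff_slash slash_ne_zero ofPS ofPS_injective)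
open Fermat.Agent.S48.B.Hecke.NormG.Reps

/-- the Taylor expansion at `i` -/
abbrev TI : HolHom (fun f : ℍ → ℂ => MDiff f) (LaurentSeries ℂ) :=
  Fermat.Agent.S24.LaurentPt.taylorHolHom UpperHalfPlane.I

/-- An expansion functional is multiplicative on finite products. -/
theorem holHom_map_prod {P : (ℍ → ℂ) → Prop} {Ω : Type*} [Field Ω] [Algebra ℂ Ω] (T : HolHom P Ω)
    (h1 : P (fun _ => (1 : ℂ))) {α : Type*} (s : Finset α) (f : α → ℍ → ℂ)
    (hf : ∀ i ∈ s, P (f i)) :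
    P (∏ i ∈ s, f i) ∧ T.T (∏ i ∈ s, f i) = ∏ i ∈ s, T.T (f i) := by
  classical
  induction s using Finset.induction_on with
  | empty =>
    rw [Finset.prod_empty, Finset.prod_empty]
    refine ⟨h1, ?_⟩
    have := T.map_const 1
    rw [map_one] at this
    exact this
  | insert i t hi IH =>
    obtain ⟨hPt, hTt⟩ := IH fun j hj => hf j (Finset.mem_insert_of_mem hj)
    have hPi := hf i (Finset.mem_insert_self i t)
    rw [Finset.prod_insert hi, Finset.prod_insert hi]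
    exact ⟨T.P_mul _ _ hPi hPt, by rw [T.map_mul _ _ hPi hPt, hTt]⟩

section Main

variable {Γ' Γ : Subgroup SL(2, ℤ)} [hT' : Fact (ModularGroup.T ∈ Γ')] [hT : Fact (ModularGroup.T ∈ Γ)]

omit hT' hT in
/-- a representation on `Γ` is a representation on every smaller group -/
theorem isRepOfG_mono (hle : Γ' ≤ Γ) {g : LaurentSeries ℂ} {k : ℤ} {a b : ℍ → ℂ}
    (h : IsRepOfG Γ g k a b) : IsRepOfG Γ' g k a b :=
  ⟨h.ha.mono (GG_mono hle), h.hb.mono (GG_mono hle), h.hb0, h.eq⟩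

variable (hle : Γ' ≤ Γ)
  {F E : Type*} [Field F] [Field E] [Algebra F E]
  (ρF : F →+* repFieldG Γ) (ρE : E →+* repFieldG Γ')
  (hcompat : ∀ y : F, ((ρE (algebraMap F E y) : repFieldG Γ') : LaurentSeries ℂ) =
    ((ρF y : repFieldG Γ) : LaurentSeries ℂ))

include hle hcompat in
/-- on the base field, the homomorphism attached to `δ ∈ Γ` at the upper level is the one attached
to `1` at the lower level -/
theorem lmapG_base {P : (ℍ → ℂ) → Prop} {Ω : Type*} [Field Ω] [Algebra ℂ Ω] (T : HolHom P Ω)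
    {δ : SL(2, ℤ)} (hδ : δ ∈ Γ) (hP : SlashPG Γ' P δ) (hP0 : SlashPG Γ P 1) (y : F) :
    LmapG T δ hP (ρE (algebraMap F E y)) = LmapG T 1 hP0 (ρF y) := by
  obtain ⟨k, a, b, h⟩ := (ρF y).2
  have h' : IsRepOfG Γ' ((ρE (algebraMap F E y) : repFieldG Γ') : LaurentSeries ℂ) k a b := by
    rw [hcompat]
    exact isRepOfG_mono hle h
  rw [LmapG_eq_div hP _ h', LmapG_eq_div hP0 _ h]
  have e1 := slashG_mul_left_of_mem (γ := (1 : SL(2, ℤ))) hδ h.ha
  have e2 := slashG_mul_left_of_mem (γ := (1 : SL(2, ℤ))) hδ h.hb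
  rw [mul_one] at e1 e2
  rw [e1, e2]

variable [FiniteDimensional F E] [Algebra.IsSeparable F E]
  {X : Type*} [Fintype X] (s : X → SL(2, ℤ)) (hs : ∀ x, s x ∈ Γ) (hsys : IsSystemG Γ' s hs)
  (hcard : Fintype.card X = Module.finrank F E)
  (hinj : Function.Injective fun x : X =>
    (LmapG (Γ := Γ') TI (s x) (slashPG_mdiff Γ' (s x))).comp ρE)

include hle hcompat hsys hcard hinj in
/-- **the norm of a representation** -/
theorem isRepOfG_norm (g : E) {k : ℤ} {A B : ℍ → ℂ}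
    (h : IsRepOfG Γ' ((ρE g : repFieldG Γ') : LaurentSeries ℂ) k A B) :
    IsRepOfG Γ ((ρF (Algebra.norm F g) : repFieldG Γ) : LaurentSeries ℂ)
      (k * (Fintype.card X : ℤ)) (∏ x, A ∣[k] s x) (∏ x, B ∣[k] s x) := by
  classical
  obtain ⟨k', a', b', h'⟩ := (ρF (Algebra.norm F g)).2
  have hP0 : SlashPG Γ (fun f : ℍ → ℂ => MDiff f) 1 := slashPG_mdiff Γ 1
  have hnorm : LmapG (Γ := Γ) TI 1 hP0 (ρF (Algebra.norm F g)) =
      ∏ x : X, LmapG (Γ := Γ') TI (s x) (slashPG_mdiff Γ' (s x)) (ρE g) :=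
    Fermat.Agent.S24.AllPlaces.map_norm_eq_prod
      (fun x : X => (LmapG (Γ := Γ') TI (s x) (slashPG_mdiff Γ' (s x))).comp ρE) hinj hcard
      ((LmapG (Γ := Γ) TI 1 hP0).comp ρF)
      (fun x y => lmapG_base hle ρF ρE hcompat TI (hs x) (slashPG_mdiff Γ' (s x)) hP0 y) g
  rw [LmapG_eq_div hP0 _ h', SlashAction.slash_one, SlashAction.slash_one] at hnorm
  have hfac : ∀ x : X, LmapG (Γ := Γ') TI (s x) (slashPG_mdiff Γ' (s x)) (ρE g) =
      TI.T (A ∣[k] s x) / TI.T (B ∣[k] s x) := fun x => LmapG_eq_div _ _ h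
  rw [Finset.prod_congr rfl fun x _ => hfac x, Finset.prod_div_distrib] at hnorm
  have hAmd : MDiff A := mdiff_of_isMF h.ha
  have hBmd : MDiff B := mdiff_of_isMF h.hb
  have h1 : MDiff (fun _ : ℍ => (1 : ℂ)) := mdifferentiable_const
  have hA := holHom_map_prod TI h1 Finset.univ (fun x : X => A ∣[k] s x)
    fun x _ => mdiff_slash _ hAmd
  have hB := holHom_map_prod TI h1 Finset.univ (fun x : X => B ∣[k] s x)
    fun x _ => mdiff_slash _ hBmd
  rw [← hA.2, ← hB.2] at hnorm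
  -- the two norm forms
  have hNA : IsMF (GG Γ) (k * (Fintype.card X : ℤ)) (∏ x, A ∣[k] s x) :=
    isMF_prod_slash s hs hsys h.ha
  have hNB : IsMF (GG Γ) (k * (Fintype.card X : ℤ)) (∏ x, B ∣[k] s x) :=
    isMF_prod_slash s hs hsys h.hb
  have hNB0 : (∏ x, B ∣[k] s x) ≠ 0 := prod_slash_ne_zero' s hBmd h.hb0
  have ha'md : MDiff a' := mdiff_of_isMF h'.ha
  have hb'md : MDiff b' := mdiff_of_isMF h'.hb
  have hTb' : TI.T b' ≠ 0 := TI.ne_zero hb'md h'.hb0
  have hTNB : TI.T (∏ x, B ∣[k] s x) ≠ 0 := TI.ne_zero hB.1 hNB0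
  -- `a' * NB = NA * b'`
  have hfun : a' * (∏ x, B ∣[k] s x) = (∏ x, A ∣[k] s x) * b' := by
    apply Fermat.Agent.S24.LmapSep.HolHom.eq_of_map_eq TI
      Fermat.Agent.S24.LmapSep.mdiff_sub_closed (ha'md.mul hB.1) (hA.1.mul hb'md)
    rw [TI.map_mul _ _ ha'md hB.1, TI.map_mul _ _ hA.1 hb'md]
    rw [div_eq_div_iff hTb' hTNB] at hnorm
    exact hnorm
  -- `q`-expansions
  have hQa' : IsQ a' := isQ_of_isMFG h'.ha
  have hQb' : IsQ b' := isQ_of_isMFG h'.hb
  have hQNA : IsQ (∏ x, A ∣[k] s x) := isQ_of_isMFG hNA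
  have hQNB : IsQ (∏ x, B ∣[k] s x) := isQ_of_isMFG hNB
  refine ⟨hNA, hNB, hNB0, ?_⟩
  have hqx := congrArg (fun G : ℍ → ℂ => ofPS (qx G)) hfun
  beta_reduce at hqx
  rw [qx_mul hQa' hQNB, qx_mul hQNA hQb', map_mul, map_mul, h'.eq] at hqx
  apply mul_right_cancel₀ h'.qx_b_ne_zero
  rw [← hqx]
  ring

end Main

end Fermat.Agent.S48.B.Hecke.NormG.Norm
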